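import Fermat.Agent.Ideles.Existence
import Mathlib.FieldTheory.Galois.Abelian

/-!
# The Artin map into an infinite abelian Galois group

The Artin maps of the finite subextensions are compatible, so they give a continuous map with dense
image to the Galois group of any abelian extension; for the maximal one its kernel is the
intersection of the open subgroups containing the principal ideles.
-/

set_option autoImplicit false
set_option linter.unusedSectionVars false
set_option linter.style.haveILetI false

noncomputable section

open NumberField IsDedekindDomain Topology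
open FA.ArtinRec FA.NormResidue
open scoped IntermediateField Classical

namespace FA.Ideles

universe u w

variable {K : Type u} [Field K] [NumberField K] {Ω : Type w} [Field Ω] [Algebra K Ω]
  [IsAbelianGalois K Ω]

/-- The action of an idele through a finite subextension. -/
def subArtin (E : IntermediateField K Ω) [FiniteDimensional K E] (x : Idele K) : E ≃ₐ[K] E :=
  haveI : NumberField E := NumberField.of_module_finite K E
  artinIdele E x

theorem subArtin_mul (E : IntermediateField K Ω) [FiniteDimensional K E] (x y : Idele K) :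
    subArtin E (x * y) = subArtin E x * subArtin E y :=
  haveI : NumberField E := NumberField.of_module_finite K E
  map_mul (artinIdele (K := K) E) x y

theorem subArtin_one (E : IntermediateField K Ω) [FiniteDimensional K E] :
    subArtin E (1 : Idele K) = 1 :=
  haveI : NumberField E := NumberField.of_module_finite K E
  map_one (artinIdele (K := K) E)

theorem subArtin_apply_of_le {E F : IntermediateField K Ω} [FiniteDimensional K E]
    [FiniteDimensional K F] (hEF : E ≤ F) (x : Idele K) (y : E) :
    (subArtin F x ⟨y, hEF y.2⟩ : Ω) = (subArtin E x y : Ω) := by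
  haveI : NumberField E := NumberField.of_module_finite K E
  haveI : NumberField F := NumberField.of_module_finite K F
  let := (IntermediateField.inclusion hEF).toRingHom.toAlgebra
  haveI : IsScalarTower K E F := IsScalarTower.of_algebraMap_eq fun z => rfl
  have h := restrict_artinIdele (L := F) (E := E) x
  show ((artinIdele F x (algebraMap E F y) : F) : Ω) = ((artinIdele E x y : E) : Ω)
  rw [← h, ← AlgEquiv.restrictNormal_commutes (artinIdele F x) E y]
  rfl

theorem finite_adjoin (S : Set Ω) (hS : S.Finite) :
    FiniteDimensional K (IntermediateField.adjoin K S) :=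
  haveI := hS.to_subtype
  IntermediateField.finiteDimensional_adjoin fun z _ => Algebra.IsIntegral.isIntegral z

/-- The action of an idele on one element. -/
def abelVal (x : Idele K) (y : Ω) : Ω :=
  haveI := finite_adjoin (K := K) ({y} : Set Ω) (Set.finite_singleton y)
  (subArtin (IntermediateField.adjoin K ({y} : Set Ω)) x
    ⟨y, IntermediateField.subset_adjoin K _ rfl⟩ : Ω)

theorem abelVal_eq (x : Idele K) {E : IntermediateField K Ω} [FiniteDimensional K E] {y : Ω}
    (hy : y ∈ E) : abelVal x y = (subArtin E x ⟨y, hy⟩ : Ω) := by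
  haveI := finite_adjoin (K := K) ({y} : Set Ω) (Set.finite_singleton y)
  exact (subArtin_apply_of_le (IntermediateField.adjoin_le_iff.2 (Set.singleton_subset_iff.2 hy)) x
    ⟨y, IntermediateField.subset_adjoin K _ rfl⟩).symm

/-- The action of an idele as a homomorphism. -/
def abelHom (x : Idele K) : Ω →ₐ[K] Ω where
  toFun := abelVal x
  map_one' := by
    rw [abelVal_eq x (one_mem (⊥ : IntermediateField K Ω))]
    exact congrArg Subtype.val (map_one (subArtin (⊥ : IntermediateField K Ω) x))
  map_mul' y z := by
    haveI := finite_adjoin (K := K) ({y, z} : Set Ω) ((Set.finite_singleton z).insert y)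
    set E := IntermediateField.adjoin K ({y, z} : Set Ω)
    have hy : y ∈ E := IntermediateField.subset_adjoin K _ (Set.mem_insert y {z})
    have hz : z ∈ E := IntermediateField.subset_adjoin K _ (Set.mem_insert_of_mem y rfl)
    rw [abelVal_eq x (mul_mem hy hz), abelVal_eq x hy, abelVal_eq x hz]
    exact congrArg Subtype.val (map_mul (subArtin E x) ⟨y, hy⟩ ⟨z, hz⟩)
  map_zero' := by
    rw [abelVal_eq x (zero_mem (⊥ : IntermediateField K Ω))]
    exact congrArg Subtype.val (map_zero (subArtin (⊥ : IntermediateField K Ω) x))
  map_add' y z := by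
    haveI := finite_adjoin (K := K) ({y, z} : Set Ω) ((Set.finite_singleton z).insert y)
    set E := IntermediateField.adjoin K ({y, z} : Set Ω)
    have hy : y ∈ E := IntermediateField.subset_adjoin K _ (Set.mem_insert y {z})
    have hz : z ∈ E := IntermediateField.subset_adjoin K _ (Set.mem_insert_of_mem y rfl)
    rw [abelVal_eq x (add_mem hy hz), abelVal_eq x hy, abelVal_eq x hz]
    exact congrArg Subtype.val (map_add (subArtin E x) ⟨y, hy⟩ ⟨z, hz⟩)
  commutes' r := by
    rw [abelVal_eq x ((⊥ : IntermediateField K Ω).algebraMap_mem r)]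
    exact congrArg Subtype.val ((subArtin (⊥ : IntermediateField K Ω) x).commutes r)

theorem abelHom_mul (x x' : Idele K) :
    (abelHom (x * x') : Ω →ₐ[K] Ω) = (abelHom x).comp (abelHom x') := AlgHom.ext fun y => by
  haveI := finite_adjoin (K := K) ({y} : Set Ω) (Set.finite_singleton y)
  set E := IntermediateField.adjoin K ({y} : Set Ω)
  have hy : y ∈ E := IntermediateField.subset_adjoin K _ rfl
  show abelVal (x * x') y = abelVal x (abelVal x' y)
  rw [abelVal_eq (x * x') hy, abelVal_eq x' hy, abelVal_eq x (subArtin E x' ⟨y, hy⟩).2, subArtin_mul]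
  rfl

theorem abelHom_one : (abelHom (1 : Idele K) : Ω →ₐ[K] Ω) = AlgHom.id K Ω := AlgHom.ext fun y => by
  haveI := finite_adjoin (K := K) ({y} : Set Ω) (Set.finite_singleton y)
  show abelVal 1 y = y
  rw [abelVal_eq 1 (IntermediateField.subset_adjoin K ({y} : Set Ω) rfl), subArtin_one]
  rfl

variable (Ω) in
/-- **The Artin map into an abelian Galois group.** -/
def artinAbel : Idele K →* (Ω ≃ₐ[K] Ω) :=
  MonoidHom.mk' (fun x => AlgEquiv.ofAlgHom (abelHom x) (abelHom x⁻¹)
    (by rw [← abelHom_mul, mul_inv_cancel, abelHom_one])
    (by rw [← abelHom_mul, inv_mul_cancel, abelHom_one])) fun x y => AlgEquiv.ext fun z => by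
    show abelHom (x * y) z = abelHom x (abelHom y z)
    rw [abelHom_mul]
    rfl

theorem artinAbel_restrict (E : IntermediateField K Ω) [NumberField E] [FiniteDimensional K E]
    (x : Idele K) : AlgEquiv.restrictNormalHom E (artinAbel Ω x) = artinIdele E x := by
  refine AlgEquiv.ext fun y => Subtype.ext ?_
  exact (AlgEquiv.restrictNormal_commutes (artinAbel Ω x) E y).trans (abelVal_eq x y.2)

theorem artinAbel_eq_one_iff (x : Idele K) :
    artinAbel Ω x = 1 ↔ ∀ E : IntermediateField K Ω, [FiniteDimensional K E] → subArtin E x = 1 := by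
  constructor
  · intro h E _
    refine AlgEquiv.ext fun y => Subtype.ext ?_
    rw [← abelVal_eq x y.2]
    exact DFunLike.congr_fun h (y : Ω)
  · intro h
    refine AlgEquiv.ext fun y => ?_
    haveI := finite_adjoin (K := K) ({y} : Set Ω) (Set.finite_singleton y)
    show abelVal x y = y
    rw [abelVal_eq x (IntermediateField.subset_adjoin K ({y} : Set Ω) rfl),
      h (IntermediateField.adjoin K ({y} : Set Ω))]
    rfl

/-- **Continuous.** -/
theorem continuous_artinAbel : Continuous (artinAbel (K := K) Ω) := by
  refine continuous_of_continuousAt_one _ ?_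
  rw [ContinuousAt, map_one, Filter.tendsto_def]
  intro s hs
  obtain ⟨E, hE, hsub⟩ := (krullTopology_mem_nhds_one_iff K Ω s).1 hs
  haveI : NumberField E := NumberField.of_module_finite K E
  refine Filter.mem_of_superset (isOpen_ker_artinIdele.mem_nhds (one_mem
    (artinIdele (K := K) E).ker)) fun x hx => hsub ?_
  refine (IntermediateField.mem_fixingSubgroup_iff E _).2 fun y hy => ?_
  show abelVal x y = y
  rw [abelVal_eq x hy, show subArtin E x = 1 from MonoidHom.mem_ker.1 hx]
  rfl

/-- **The image is dense.** -/
theorem denseRange_artinAbel : DenseRange (artinAbel (K := K) Ω) := by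
  intro σ
  rw [mem_closure_iff_nhds]
  intro s hs
  have h1 : (fun τ => σ * τ) ⁻¹' s ∈ 𝓝 (1 : Ω ≃ₐ[K] Ω) :=
    (continuous_const_mul σ).continuousAt.preimage_mem_nhds (by simpa using hs)
  obtain ⟨E, hE, hsub⟩ := (krullTopology_mem_nhds_one_iff K Ω _).1 h1
  haveI : NumberField E := NumberField.of_module_finite K E
  obtain ⟨x, hx⟩ := artinIdele_surjective (K := K) (L := E) (AlgEquiv.restrictNormalHom E σ)
  refine ⟨artinAbel Ω x, ?_, x, rfl⟩
  have h2 : σ⁻¹ * artinAbel Ω x ∈ E.fixingSubgroup := by
    refine (IntermediateField.mem_fixingSubgroup_iff E _).2 fun y hy => ?_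
    show σ.symm (artinAbel Ω x y) = y
    rw [AlgEquiv.symm_apply_eq]
    show abelVal x y = σ y
    rw [abelVal_eq x hy, show subArtin E x = AlgEquiv.restrictNormalHom E σ from hx]
    exact AlgEquiv.restrictNormal_commutes σ E ⟨y, hy⟩
  have h3 := hsub h2
  simpa using h3

/-! ### The maximal abelian extension -/

variable (K) in
/-- The compositum of the finite abelian extensions in an algebraic closure. -/
def maxAbelian : IntermediateField K (AlgebraicClosure K) :=
  ⨆ E : {E : IntermediateField K (AlgebraicClosure K) //
    FiniteDimensional K E ∧ IsAbelianGalois K E}, E.1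

theorem le_maxAbelian {E : IntermediateField K (AlgebraicClosure K)} (h1 : FiniteDimensional K E)
    (h2 : IsAbelianGalois K E) : E ≤ maxAbelian K :=
  le_iSup (fun E : {E : IntermediateField K (AlgebraicClosure K) //
    FiniteDimensional K E ∧ IsAbelianGalois K E} => E.1) ⟨E, h1, h2⟩

instance normal_maxAbelian : Normal K (maxAbelian K) :=
  haveI : ∀ E : {E : IntermediateField K (AlgebraicClosure K) //
      FiniteDimensional K E ∧ IsAbelianGalois K E}, Normal K E.1 := fun E =>
    haveI := E.2.2
    inferInstance
  inferInstanceAs (Normal K (⨆ E : {E : IntermediateField K (AlgebraicClosure K) //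
    FiniteDimensional K E ∧ IsAbelianGalois K E}, E.1 : IntermediateField K (AlgebraicClosure K)))

instance isGalois_maxAbelian : IsGalois K (maxAbelian K) := ⟨⟩

instance isAbelianGalois_maxAbelian : IsAbelianGalois K (maxAbelian K) where
  is_comm.comm s t := by
    obtain ⟨s, rfl⟩ := AlgEquiv.restrictNormalHom_surjective (AlgebraicClosure K) s
    obtain ⟨t, rfl⟩ := AlgEquiv.restrictNormalHom_surjective (AlgebraicClosure K) t
    rw [← map_mul, ← map_mul]
    set a := s * t
    set b := t * s
    have hle : maxAbelian K ≤ IntermediateField.fixedField (Subgroup.zpowers (b⁻¹ * a)) := by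
      refine iSup_le fun E => fun y hy => ?_
      haveI := E.2.2
      have h : AlgEquiv.restrictNormalHom E.1 (b⁻¹ * a) = 1 := by
        rw [map_mul, map_inv, map_mul, map_mul, mul_comm' (AlgEquiv.restrictNormalHom E.1 t),
          inv_mul_cancel]
      have h1 : (b⁻¹ * a) y = y := by
        have h2 := AlgEquiv.restrictNormal_commutes (b⁻¹ * a) E.1 ⟨y, hy⟩
        rw [show (b⁻¹ * a).restrictNormal E.1 = AlgEquiv.restrictNormalHom E.1 (b⁻¹ * a) from rfl,
          h] at h2
        exact h2.symm
      rintro ⟨g, hg⟩
      exact (Subgroup.zpowers_le.2 (show b⁻¹ * a ∈ MulAction.stabilizer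
        (AlgebraicClosure K ≃ₐ[K] AlgebraicClosure K) y from h1) hg :)
    refine AlgEquiv.ext fun y => Subtype.ext ?_
    refine (AlgEquiv.restrictNormal_commutes a _ y).trans
      (Eq.trans ?_ (AlgEquiv.restrictNormal_commutes b _ y).symm)
    have h3 : (b⁻¹ * a) (y : AlgebraicClosure K) = y := hle y.2 ⟨_, Subgroup.mem_zpowers _⟩
    have h4 := congrArg b h3
    rwa [← AlgEquiv.mul_apply, mul_inv_cancel_left] at h4

/-- **The kernel**: the intersection of the open subgroups containing the principal ideles. -/
theorem artinAbel_maxAbelian_eq_one_iff (x : Idele K) :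
    artinAbel (maxAbelian K) x = 1 ↔
      ∀ H : Subgroup (Idele K), IsOpen (H : Set (Idele K)) → (principal (K := K)).range ≤ H →
        x ∈ H := by
  rw [artinAbel_eq_one_iff]
  constructor
  · intro h H hH hp
    obtain ⟨L, i1, i2, i3, i4, i5, hL⟩ := exists_ker_artinIdele_eq hH hp
    let f : L →ₐ[K] AlgebraicClosure K := IsAlgClosed.lift
    haveI : IsAbelianGalois K L := { i4, i5 with }
    haveI hfin : FiniteDimensional K f.fieldRange :=
      (AlgEquiv.ofInjectiveField f).toLinearEquiv.finiteDimensional
    have hab : IsAbelianGalois K f.fieldRange :=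
      IsAbelianGalois.of_algHom (AlgEquiv.ofInjectiveField f).symm.toAlgHom
    obtain ⟨E, hE, e, he⟩ : ∃ (E : IntermediateField K (maxAbelian K)), ∃ _ : FiniteDimensional K E,
        ∃ _ : L ≃ₐ[K] E, True := by
      let g : L →ₐ[K] maxAbelian K := (IntermediateField.inclusion (le_maxAbelian hfin hab)).comp
        (AlgEquiv.ofInjectiveField f).toAlgHom
      exact ⟨g.fieldRange, (AlgEquiv.ofInjectiveField g).toLinearEquiv.finiteDimensional,
        AlgEquiv.ofInjectiveField g, trivial⟩
    haveI : NumberField E := NumberField.of_module_finite K E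
    rw [← hL, (ker_artinIdele_eq_iff (L := L) (E := E)).2 ⟨e.symm⟩]
    exact h E
  · intro h E hE
    haveI : NumberField E := NumberField.of_module_finite K E
    exact MonoidHom.mem_ker.1 (h _ isOpen_ker_artinIdele
      (by rintro _ ⟨a, rfl⟩; exact artinIdele_principal a))

end FA.Ideles

end
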