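import Fermat.Agent.Ideles.Compare

/-!
# The existence theorem on the ideles

An open subgroup contains a level subgroup: near `1` at the primes this is the topology of the
restricted product, and at the infinite places the elements of positive sign lie on one-parameter
subgroups.  So the open subgroups containing the principal ideles are the kernels of the Artin maps
of the abelian extensions.
-/

set_option autoImplicit false
set_option linter.unusedSectionVars false
set_option linter.style.haveILetI false

noncomputable section

open NumberField NumberField.InfinitePlace NumberField.InfinitePlace.Completion IsDedekindDomain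
open Finset WithZero IsMulCommutative
open FA.ArtinRec FA.NormResidue
open scoped Pointwise Classical Topology

namespace FA.Ideles

universe u

variable {K : Type u} [Field K] [NumberField K]

/-- The idele with one component at an infinite place. -/
def infSingle (w : InfinitePlace K) : w.Completionˣ →* Idele K :=
  Units.map
    { toFun := fun z => ((Function.update (1 : InfiniteAdeleRing K) w z, 1) :
        InfiniteAdeleRing K × FiniteAdeleRing (𝓞 K) K)
      map_one' := Prod.ext (Function.update_eq_self w (1 : InfiniteAdeleRing K)) rfl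
      map_mul' := fun a b => Prod.ext (funext fun u => by
        show Function.update (1 : InfiniteAdeleRing K) w (a * b) u =
          Function.update (1 : InfiniteAdeleRing K) w a u *
            Function.update (1 : InfiniteAdeleRing K) w b u
        by_cases h : u = w
        · subst h; simp
        · simp only [Function.update_of_ne h]
          exact (one_mul _).symm) (one_mul (1 : FiniteAdeleRing (𝓞 K) K)).symm }

theorem infComp_infSingle_self (w : InfinitePlace K) (z : w.Completionˣ) :
    infComp w (infSingle w z) = z :=
  Units.ext (Function.update_self (f := (1 : InfiniteAdeleRing K)) w (z : w.Completion))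

theorem infComp_infSingle_of_ne {u w : InfinitePlace K} (h : u ≠ w) (z : w.Completionˣ) :
    infComp u (infSingle w z) = 1 :=
  Units.ext (Function.update_of_ne h _ _)

theorem finComp_infSingle (v : HeightOneSpectrum (𝓞 K)) (w : InfinitePlace K)
    (z : w.Completionˣ) : finComp v (infSingle w z) = 1 := Units.ext rfl

theorem continuous_infSingle_val (w : InfinitePlace K) :
    Continuous fun z : w.Completion => ((Function.update (1 : InfiniteAdeleRing K) w z, 1) :
      InfiniteAdeleRing K × FiniteAdeleRing (𝓞 K) K) :=
  ((continuous_const (y := (1 : InfiniteAdeleRing K))).update w continuous_id).prodMk continuous_const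

/-- **An open subgroup contains every one-parameter subgroup.** -/
theorem infSingle_mem_of_path {H : Subgroup (Idele K)} (hH : IsOpen (H : Set (Idele K)))
    {w : InfinitePlace K} (g : ℝ → w.Completionˣ) (hg : Continuous fun s => (g s : w.Completion))
    (h0 : g 0 = 1) (hadd : ∀ s t, g (s + t) = g s * g t) : infSingle w (g 1) ∈ H := by
  have hneg : ∀ s, (g s)⁻¹ = g (-s) := fun s =>
    inv_eq_of_mul_eq_one_right (by rw [← hadd, add_neg_cancel, h0])
  have hc : Continuous fun s => infSingle w (g s) := by
    refine Units.continuous_iff.2 ⟨(continuous_infSingle_val w).comp hg, ?_⟩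
    have e : (fun s => ((infSingle w (g s))⁻¹ : Idele K).val) =
        fun s => (infSingle w (g (-s))).val := funext fun s => by rw [← map_inv, hneg]
    show Continuous fun s => ((infSingle w (g s))⁻¹ : Idele K).val
    rw [e]
    exact (continuous_infSingle_val w).comp (hg.comp continuous_neg)
  let U : AddSubgroup ℝ :=
    { carrier := {s | infSingle w (g s) ∈ H}
      zero_mem' := by
        show infSingle w (g 0) ∈ H
        rw [h0, map_one]
        exact one_mem H
      add_mem' := fun {s t} (hs : infSingle w (g s) ∈ H) (ht : infSingle w (g t) ∈ H) => by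
        show infSingle w (g (s + t)) ∈ H
        rw [hadd, map_mul]
        exact mul_mem hs ht
      neg_mem' := fun {s} (hs : infSingle w (g s) ∈ H) => by
        show infSingle w (g (-s)) ∈ H
        rw [← hneg, map_inv]
        exact inv_mem hs }
  have hU : IsOpen (U : Set ℝ) := hH.preimage hc
  have h := (IsClopen.eq_univ ⟨U.isClosed_of_isOpen hU, hU⟩ ⟨0, U.zero_mem⟩)
  exact (Set.ext_iff.1 h 1).2 trivial

/-- An open subgroup contains the positive elements at every infinite place. -/
theorem infSingle_mem {H : Subgroup (Idele K)} (hH : IsOpen (H : Set (Idele K)))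
    (w : InfinitePlace K) (z : w.Completionˣ)
    (hpos : ∀ hr : IsReal w, 0 < extensionEmbeddingOfIsReal hr (z : w.Completion)) :
    infSingle w z ∈ H := by
  by_cases hr : IsReal w
  · set e := isometryEquivRealOfIsReal hr
    set E := ringEquivRealOfIsReal hr
    set r := E (z : w.Completion)
    have hr0 : 0 < r := hpos hr
    let g : ℝ → w.Completionˣ := fun s => Units.mk0 (E.symm (Real.exp (s * Real.log r)))
      ((map_ne_zero _).2 (Real.exp_ne_zero _))
    have hz : g 1 = z := Units.ext (by
      show E.symm (Real.exp (1 * Real.log r)) = z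
      rw [one_mul, Real.exp_log hr0, RingEquiv.symm_apply_apply])
    rw [← hz]
    refine infSingle_mem_of_path hH g ?_ ?_ ?_
    · exact e.symm.continuous.comp (Real.continuous_exp.comp (continuous_id.mul continuous_const))
    · exact Units.ext (by
        show E.symm (Real.exp (0 * Real.log r)) = 1
        rw [zero_mul, Real.exp_zero, map_one])
    · exact fun s t => Units.ext (by
        show E.symm (Real.exp ((s + t) * Real.log r)) =
          E.symm (Real.exp (s * Real.log r)) * E.symm (Real.exp (t * Real.log r))
        rw [← map_mul, ← Real.exp_add, add_mul])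
  · have hc := not_isReal_iff_isComplex.1 hr
    set e := isometryEquivComplexOfIsComplex hc
    set E := ringEquivComplexOfIsComplex hc
    set r := E (z : w.Completion)
    have hr0 : r ≠ 0 := (map_ne_zero _).2 z.ne_zero
    let g : ℝ → w.Completionˣ := fun s => Units.mk0 (E.symm (Complex.exp (s * Complex.log r)))
      ((map_ne_zero _).2 (Complex.exp_ne_zero _))
    have hz : g 1 = z := Units.ext (by
      show E.symm (Complex.exp (((1 : ℝ) : ℂ) * Complex.log r)) = z
      rw [Complex.ofReal_one, one_mul, Complex.exp_log hr0, RingEquiv.symm_apply_apply])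
    rw [← hz]
    refine infSingle_mem_of_path hH g ?_ ?_ ?_
    · exact e.symm.continuous.comp
        (Complex.continuous_exp.comp (Complex.continuous_ofReal.mul continuous_const))
    · exact Units.ext (by
        show E.symm (Complex.exp (((0 : ℝ) : ℂ) * Complex.log r)) = 1
        rw [Complex.ofReal_zero, zero_mul, Complex.exp_zero, map_one])
    · exact fun s t => Units.ext (by
        show E.symm (Complex.exp (((s + t : ℝ) : ℂ) * Complex.log r)) =
          E.symm (Complex.exp ((s : ℂ) * Complex.log r)) *
            E.symm (Complex.exp ((t : ℂ) * Complex.log r))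
        rw [← map_mul, ← Complex.exp_add, Complex.ofReal_add, add_mul])

/-- A neighbourhood of `1` in the integers of a completion contains all elements close to `1`. -/
theorem exists_level_subset (v : HeightOneSpectrum (𝓞 K)) {u : Set (v.adicCompletionIntegers K)}
    (hu : IsOpen u) (h1 : (1 : v.adicCompletionIntegers K) ∈ u) :
    ∃ k : ℕ, ∀ y : v.adicCompletionIntegers K,
      Valued.v ((y : v.adicCompletion K) - 1) ≤ exp (-(k : ℤ)) → y ∈ u := by
  obtain ⟨V, hV, rfl⟩ := isOpen_induced_iff.1 hu
  obtain ⟨k, hk⟩ := FA.QuadFormsNF.exists_exp_subset v (z := (1 : v.adicCompletion K))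
    (hV.mem_nhds h1)
  exact ⟨k, fun y hy => hk _ hy⟩

/-- **An open subgroup contains a level subgroup.** -/
theorem exists_levelSub_le {H : Subgroup (Idele K)} (hH : IsOpen (H : Set (Idele K))) :
    ∃ T : Set (HeightOneSpectrum (𝓞 K)), T.Finite ∧ ∃ k : ℕ, levelSub T k ≤ H := by
  obtain ⟨W, hW, hWH⟩ := isOpen_induced_iff.1 hH
  have h1 : ((1 : AdeleRing (𝓞 K) K), MulOpposite.op (1 : AdeleRing (𝓞 K) K)) ∈ W := by
    have h := one_mem H
    rw [← SetLike.mem_coe, ← hWH] at h
    exact h
  obtain ⟨U1, U2, hU1, hU2, h11, h12, hsub⟩ := isOpen_prod_iff.1 hW _ _ h1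
  set U : Set (AdeleRing (𝓞 K) K) := U1 ∩ MulOpposite.op ⁻¹' U2
  have hU : IsOpen U := hU1.inter (hU2.preimage MulOpposite.continuous_op)
  have hUH : ∀ x : Idele K, x.val ∈ U → (↑x⁻¹ : AdeleRing (𝓞 K) K) ∈ U → x ∈ H := fun x hx hx' => by
    rw [← SetLike.mem_coe, ← hWH]
    exact hsub ⟨hx.1, hx'.2⟩
  have hU' : IsOpen (X := InfiniteAdeleRing K × FiniteAdeleRing (𝓞 K) K) U := hU
  obtain ⟨Ui, Uf, hUi, hUf, hi1, hf1, hsub'⟩ := isOpen_prod_iff.1 hU'
    (1 : InfiniteAdeleRing K) (1 : FiniteAdeleRing (𝓞 K) K) ⟨h11, h12⟩
  set S : ((v : HeightOneSpectrum (𝓞 K)) → v.adicCompletionIntegers K) →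
      FiniteAdeleRing (𝓞 K) K := RestrictedProduct.structureMap _ _ Filter.cofinite
  have hS : Continuous S := RestrictedProduct.isEmbedding_structureMap.continuous
  obtain ⟨T, u, hu, hTu⟩ := isOpen_pi_iff.1 (hUf.preimage hS) (fun _ => 1)
    (show S (fun _ => 1) ∈ Uf by exact hf1)
  choose k hk using fun v : {v // v ∈ T} => exists_level_subset v.1 (hu v.1 v.2).1 (hu v.1 v.2).2
  refine ⟨T, T.finite_toSet, Finset.univ.sup k, fun x hx => ?_⟩
  set I : Idele K := ∏ w : InfinitePlace K, infSingle w (infComp w x)
  have hI : I ∈ H := prod_mem fun w _ => infSingle_mem hH w _ (hx.2.2 w)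
  have hIf : ∀ v, finComp v I = 1 := fun v => by
    rw [map_prod]
    exact Finset.prod_eq_one fun w _ => finComp_infSingle v w _
  have hIi : ∀ w, infComp w I = infComp w x := fun w => by
    rw [map_prod, Finset.prod_eq_single w (fun u _ hu => infComp_infSingle_of_ne hu.symm _)
      (fun h => absurd (Finset.mem_univ w) h), infComp_infSingle_self]
  have key : ∀ y : Idele K, y ∈ levelSub (T : Set (HeightOneSpectrum (𝓞 K))) (Finset.univ.sup k) →
      (∀ w, infComp w y = 1) → y.val ∈ U := fun y hy hyw => by
    refine hsub' ⟨?_, ?_⟩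
    · rw [show y.val.1 = (1 : InfiniteAdeleRing K) from funext fun w => congrArg Units.val (hyw w)]
      exact hi1
    · have hint : ∀ v, ((finComp v y : (v.adicCompletion K)ˣ) : v.adicCompletion K) ∈
          v.adicCompletionIntegers K := fun v => by
        rw [HeightOneSpectrum.mem_adicCompletionIntegers]
        by_cases hv : v ∈ T
        · exact (valued_eq_one_of_nearLocal v (hy.2.1 v (Finset.mem_coe.2 hv))).le
        · exact (hy.1 v (fun h => hv (Finset.mem_coe.1 h))).le
      rw [show y.val.2 = S fun v => ⟨_, hint v⟩ from FiniteAdeleRing.ext _ fun v => rfl]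
      refine hTu fun v hv => hk ⟨v, hv⟩ _ ((hy.2.1 v (Finset.mem_coe.2 hv)).trans (exp_le_exp.2 ?_))
      have := Finset.le_sup (f := k) (Finset.mem_univ (⟨v, hv⟩ : {v // v ∈ T}))
      omega
  have hq : x / I ∈ levelSub (T : Set (HeightOneSpectrum (𝓞 K))) (Finset.univ.sup k) :=
    ⟨fun v hv => by rw [map_div, hIf, div_one]; exact hx.1 v hv,
      fun v hv => by rw [map_div, hIf, div_one]; exact hx.2.1 v hv,
      fun w hr => by rw [map_div, hIi, div_self', Units.val_one, map_one]; exact one_pos⟩
  have hqi : ∀ w, infComp w (x / I) = 1 := fun w => by rw [map_div, hIi, div_self']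
  have hxI : x / I ∈ H := hUH _ (key _ hq hqi)
    (key _ (inv_mem hq) fun w => by rw [map_inv, hqi, inv_one])
  rw [← div_mul_cancel x I]
  exact mul_mem hxI hI

/-- **The existence theorem.** -/
theorem exists_ker_artinIdele_eq {H : Subgroup (Idele K)} (hH : IsOpen (H : Set (Idele K)))
    (hp : (principal (K := K)).range ≤ H) :
    ∃ (L : Type u) (_ : Field L) (_ : NumberField L) (_ : Algebra K L) (_ : IsGalois K L)
      (_ : IsMulCommutative (L ≃ₐ[K] L)), (artinIdele L).ker = H := by
  obtain ⟨T, hT, k, hle⟩ := exists_levelSub_le hH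
  exact exists_ker_artinIdele_eq_of_level hT k hp hle

variable {L : Type*} [Field L] [NumberField L] [Algebra K L] [IsGalois K L]
  [IsMulCommutative (L ≃ₐ[K] L)]
  {E : Type*} [Field E] [NumberField E] [Algebra K E] [IsGalois K E]
  [IsMulCommutative (E ≃ₐ[K] E)]

/-- **The kernels reverse the inclusions.** -/
theorem ker_artinIdele_le_iff :
    (artinIdele (K := K) L).ker ≤ (artinIdele E).ker ↔ Nonempty (E →ₐ[K] L) := by
  constructor
  · intro h
    refine exists_algHom_of_split ((finite_isRam K L).union (finite_isRam K E)) fun v hv h1 => ?_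
    simp only [Set.mem_union, Set.mem_ofPred_eq, not_or] at hv
    rw [← artinIdele_single_unif hv.2]
    exact MonoidHom.mem_ker.1 (h (MonoidHom.mem_ker.2 ((artinIdele_single_unif hv.1).trans h1)))
  · rintro ⟨f⟩ x hx
    let := f.toRingHom.toAlgebra
    haveI : IsScalarTower K E L := IsScalarTower.of_algebraMap_eq fun x => (f.commutes x).symm
    rw [MonoidHom.mem_ker, ← restrict_artinIdele (L := L) (E := E) x, MonoidHom.mem_ker.1 hx, map_one]

/-- **An abelian extension is determined by its kernel.** -/
theorem ker_artinIdele_eq_iff :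
    (artinIdele (K := K) L).ker = (artinIdele E).ker ↔ Nonempty (E ≃ₐ[K] L) := by
  constructor
  · intro h
    obtain ⟨f⟩ := ker_artinIdele_le_iff.1 h.le
    obtain ⟨g⟩ := ker_artinIdele_le_iff.1 h.ge
    exact ⟨AlgEquiv.ofBijective f ⟨f.toRingHom.injective,
      (LinearMap.injective_iff_surjective_of_finrank_eq_finrank (f := f.toLinearMap)
        (le_antisymm (LinearMap.finrank_le_finrank_of_injective (f := f.toLinearMap) f.toRingHom.injective)
          (LinearMap.finrank_le_finrank_of_injective (f := g.toLinearMap) g.toRingHom.injective))).1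
        f.toRingHom.injective⟩⟩
  · rintro ⟨e⟩
    exact le_antisymm (ker_artinIdele_le_iff.2 ⟨e.toAlgHom⟩)
      (ker_artinIdele_le_iff.2 ⟨e.symm.toAlgHom⟩)

end FA.Ideles

end
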