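import Fermat.Agent.Ideles.Map
import Fermat.Agent.ExistenceTheorem.Existence

/-!
# The kernel of the Artin map

A homomorphism of the ideles killing the principal ones and a level subgroup is one of a ray class
group.  Comparing, the kernel of the Artin map is generated by the principal ideles and the ideles
that are local norms everywhere, and every group containing the principal ideles and a level
subgroup is the kernel for some abelian extension.
-/

set_option autoImplicit false
set_option linter.unusedSectionVars false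
set_option linter.style.haveILetI false

noncomputable section

open NumberField NumberField.InfinitePlace NumberField.InfinitePlace.Completion IsDedekindDomain
open Finset WithZero IsMulCommutative
open FA.Hecke (IsRayElt coprimeIdeals RayClassGroup rayClass)
open FA.Ext (primeIdeal)
open FA.ArtinRec FA.NormResidue
open FA.HasseCyclic (ord_eq_zero_of_nearOne)
open FA.QuadFormsNF (valued_algebraMap)
open scoped Pointwise Classical nonZeroDivisors

namespace FA.Ideles

universe u

variable {K : Type u} [Field K] [NumberField K]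

/-- The modulus of a level subgroup. -/
def levelMod {T : Set (HeightOneSpectrum (𝓞 K))} (hT : T.Finite) (k : ℕ) : Ideal (𝓞 K) :=
  ∏ v ∈ hT.toFinset, v.asIdeal ^ (k + 1)

theorem levelMod_ne_bot {T : Set (HeightOneSpectrum (𝓞 K))} (hT : T.Finite) (k : ℕ) :
    levelMod hT k ≠ ⊥ :=
  Finset.prod_ne_zero_iff.2 fun v _ => pow_ne_zero _ v.ne_bot

theorem coprime_levelMod_iff {T : Set (HeightOneSpectrum (𝓞 K))} (hT : T.Finite) (k : ℕ)
    (v : HeightOneSpectrum (𝓞 K)) : v.asIdeal ⊔ levelMod hT k = ⊤ ↔ v ∉ T := by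
  rw [sup_eq_top_iff_not_le, ← Ideal.dvd_iff_le, not_iff_not]
  constructor
  · intro hd
    obtain ⟨u, hu, hdu⟩ := v.prime.exists_mem_finset_dvd hd
    rw [HeightOneSpectrum.ext ((prime_dvd_prime_iff_eq v.prime u.prime).1
      (v.prime.dvd_of_dvd_pow hdu))]
    exact hT.mem_toFinset.1 hu
  · exact fun h => (dvd_pow_self _ k.succ_ne_zero).trans (Finset.dvd_prod_of_mem
      (fun v : HeightOneSpectrum (𝓞 K) => v.asIdeal ^ (k + 1)) (hT.mem_toFinset.2 h))

/-- **A homomorphism of the ray classes from one of the ideles.** -/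
theorem exists_rayHom_idele {G : Type*} [CommGroup G] {T : Set (HeightOneSpectrum (𝓞 K))}
    (hT : T.Finite) (k : ℕ) (q : Idele K →* G) (hp : ∀ a, q (principal a) = 1)
    (hl : levelSub T k ≤ q.ker) :
    ∃ ω : RayClassGroup (levelMod hT k) →* G,
      ∀ (v : HeightOneSpectrum (𝓞 K)) (hv : v.asIdeal ⊔ levelMod hT k = ⊤),
        ω (rayClass (levelMod_ne_bot hT k) ⟨primeIdeal v, hv⟩) =
          q (single v (localEmb v (unif v))) := by
  obtain ⟨ω, hω⟩ := exists_rayHom (levelMod_ne_bot hT k)
    (fun v => q (single v (localEmb v (unif v)))) fun x hx => by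
    set X := intU x hx.1
    have hnear : ∀ v ∈ T, X ∈ FA.HasseCyclic.nearOne v k := fun v hv =>
      nearOne_of_pow_dvd (Finset.dvd_prod_of_mem
        (fun v : HeightOneSpectrum (𝓞 K) => v.asIdeal ^ (k + 1)) (hT.mem_toFinset.2 hv)) hx.1 hx.2.1
    set F := (finite_ord_ne_zero X).toFinset
    have hF : ∀ v, v ∈ F ↔ ord v X ≠ 0 := fun v => (finite_ord_ne_zero X).mem_toFinset
    set P : Idele K := ∏ v ∈ F, single v (localEmb v (unif v) ^ ord v X)
    have hP : ∀ v, finComp v P = localEmb v (unif v) ^ ord v X := fun v => by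
      rw [map_prod]
      by_cases h : v ∈ F
      · rw [Finset.prod_eq_single v (fun u _ hu => finComp_single_of_ne hu.symm _)
          (fun h' => absurd h h'), finComp_single_self]
      · rw [show ord v X = 0 from not_not.1 (mt (hF v).2 h), zpow_zero]
        exact Finset.prod_eq_one fun u hu =>
          finComp_single_of_ne (fun e : v = u => h (e.symm ▸ hu)) _
    have hlev : principal X / P ∈ levelSub T k := by
      refine ⟨fun v hv => ?_, fun v hv => ?_, fun w hr => ?_⟩
      · rw [map_div, finComp_principal, hP, Units.val_div_eq_div_val, Units.val_zpow_eq_zpow_val,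
          localEmb_val, localEmb_val, map_div₀, map_zpow₀, valued_algebraMap, valued_algebraMap,
          valuation_eq_exp, valuation_eq_exp, ord_unif, ← exp_zsmul, smul_eq_mul, mul_neg, mul_one,
          div_self exp_ne_zero]
      · rw [map_div, finComp_principal, hP, ord_eq_zero_of_nearOne (hnear v hv), zpow_zero,
          div_one, localEmb_mem_nearLocal]
        exact hnear v hv
      · rw [map_div, map_prod, Finset.prod_eq_one (fun u _ => infComp_single w u _), div_one,
          infComp_principal]
        exact (hx.2.2 _).trans_eq (extensionEmbeddingOfIsReal_coe hr _).symm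
    have h1 := hl hlev
    rw [MonoidHom.mem_ker, map_div, hp, one_div, inv_eq_one, map_prod] at h1
    rw [ordProd_apply, finprod_eq_prod_of_mulSupport_subset (s := F) _ fun v hv =>
      (hF v).2 fun h0 => hv (by simp [h0]), ← h1]
    exact Finset.prod_congr rfl fun v _ => by rw [map_zpow, map_zpow]
  exact ⟨ω, fun v hv => by rw [hω, factorHom_prime]⟩

variable {L : Type*} [Field L] [NumberField L] [Algebra K L] [IsGalois K L]
  [IsMulCommutative (L ≃ₐ[K] L)]

variable (L) in
/-- **The ideles that are local norms everywhere.** -/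
def normSub : Subgroup (Idele K) where
  carrier := {x | (∀ v, localArtin L v (finComp v x) = 1) ∧
    ∀ w, localArtinInf L w (infComp w x) = 1}
  one_mem' := ⟨fun v => by rw [map_one, map_one], fun w => by rw [map_one, map_one]⟩
  mul_mem' {x y} hx hy := ⟨fun v => by rw [map_mul, map_mul, hx.1, hy.1, one_mul],
    fun w => by rw [map_mul, map_mul, hx.2, hy.2, one_mul]⟩
  inv_mem' {x} hx := ⟨fun v => by rw [map_inv, map_inv, hx.1, inv_one],
    fun w => by rw [map_inv, map_inv, hx.2, inv_one]⟩

theorem mem_normSub {x : Idele K} :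
    x ∈ normSub L ↔ (∀ v, localArtin L v (finComp v x) = 1) ∧
      ∀ w, localArtinInf L w (infComp w x) = 1 := Iff.rfl

theorem normSub_le_ker : normSub L ≤ (artinIdele (K := K) L).ker := fun x hx => by
  rw [MonoidHom.mem_ker, artinIdele_apply, Finset.prod_eq_one fun w _ => hx.2 w, mul_one,
    finprod_eq_one_of_forall_eq_one hx.1]

theorem levelSub_le_normSub {T : Set (HeightOneSpectrum (𝓞 K))} {k : ℕ}
    (hT : ∀ v, IsRam L v → v ∈ T) (hk : nrLevel K L ≤ k) : levelSub T k ≤ normSub L :=
  fun x hx => ⟨fun v => by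
    by_cases hv : v ∈ T
    · exact MonoidHom.mem_ker.1 (nearLocal_le_ker (nearLocal_anti v hk (hx.2.1 v hv)))
    · exact localArtin_unit (fun h => hv (hT v h)) (hx.1 v hv),
    fun w => (localArtinInf_eq_one_iff w _).2 fun _ hr => hx.2.2 w hr⟩

/-- **The kernel of the Artin map**: principal ideles and local norms. -/
theorem ker_artinIdele :
    (artinIdele (K := K) L).ker = (principal (K := K)).range ⊔ normSub L := by
  refine le_antisymm ?_ (sup_le ?_ normSub_le_ker)
  swap
  · rintro _ ⟨a, rfl⟩
    exact artinIdele_principal a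
  set H := (principal (K := K)).range ⊔ normSub L
  set q : Idele K →* Idele K ⧸ H := QuotientGroup.mk' H
  have hT := finite_isRam K L
  set T : Set (HeightOneSpectrum (𝓞 K)) := {v | IsRam L v}
  set k := nrLevel K L
  have hqp : ∀ a, q (principal a) = 1 := fun a =>
    (QuotientGroup.eq_one_iff _).2 (Subgroup.mem_sup_left ⟨a, rfl⟩)
  obtain ⟨ω, hω⟩ := exists_rayHom_idele (G := Idele K ⧸ H) hT k q hqp fun x hx => MonoidHom.mem_ker.2
    ((QuotientGroup.eq_one_iff _).2 (Subgroup.mem_sup_right (levelSub_le_normSub (fun v h => h)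
      le_rfl hx)))
  obtain ⟨ωL, hωL⟩ := exists_rayHom_idele hT k (artinIdele L) artinIdele_principal
    (levelSub_le_ker (fun v h => h) le_rfl)
  have hωL' : ∀ (v : HeightOneSpectrum (𝓞 K)) (hv : v.asIdeal ⊔ levelMod hT k = ⊤),
      ωL (rayClass (levelMod_ne_bot hT k) ⟨primeIdeal v, hv⟩) = artinAt L v := fun v hv => by
    rw [hωL, artinIdele_single_unif ((coprime_levelMod_iff hT k v).1 hv :)]
  have hsurj : Function.Surjective ωL := fun g => by
    obtain ⟨v, hv, hvr⟩ := ((infinite_artinAt (K := K) g).sdiff (finite_isRam K L)).nonempty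
    exact ⟨_, (hωL' v ((coprime_levelMod_iff hT k v).2 hvr)).trans hv⟩
  have hgen : ∀ (Q : HeightOneSpectrum (𝓞 L)) (h : normPrime K Q ∈ coprimeIdeals (levelMod hT k)),
      ∃ hv : (belowP K Q).asIdeal ⊔ levelMod hT k = ⊤,
        rayClass (levelMod_ne_bot hT k) ⟨normPrime K Q, h⟩ =
          rayClass (levelMod_ne_bot hT k) ⟨primeIdeal (belowP K Q), hv⟩ ^
            fDeg L (belowP K Q) := fun Q h => by
    have hf : fDeg L (belowP K Q) ≠ 0 := fun h0 => by
      have h1 := relNorm_prime (K := K) Q
      rw [h0, pow_zero, Ideal.one_eq_top] at h1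
      have h2 := congrArg Ideal.absNorm h1
      rw [Ideal.absNorm_relNorm, Ideal.absNorm_top] at h2
      exact Q.isPrime.ne_top (Ideal.absNorm_eq_one_iff.1 h2)
    have hv : (belowP K Q).asIdeal ⊔ levelMod hT k = ⊤ := top_le_iff.1 (by
      have h' : Ideal.relNorm (𝓞 K) Q.asIdeal ⊔ levelMod hT k = ⊤ := h
      rw [← h', relNorm_prime]
      exact sup_le_sup_right (Ideal.pow_le_self hf) _)
    refine ⟨hv, ?_⟩
    rw [← map_pow]
    exact congrArg _ (Subtype.ext (Subtype.ext (relNorm_prime Q)))
  have hkerL : ωL.ker = normClasses L (levelMod_ne_bot hT k) := by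
    have hle : normClasses L (levelMod_ne_bot hT k) ≤ ωL.ker := by
      rw [normClasses, Subgroup.closure_le]
      rintro _ ⟨Q, h, rfl⟩
      obtain ⟨hv, e⟩ := hgen Q h
      rw [SetLike.mem_coe, MonoidHom.mem_ker, e, map_pow, hωL',
        artinAt_pow_fDeg ((coprime_levelMod_iff hT k _).1 hv :)]
    haveI := FA.Hecke.finite_rayClassGroup (levelMod_ne_bot hT k)
    refine le_antisymm (Subgroup.relIndex_eq_one.1 ?_) hle
    have h1 := Subgroup.relIndex_mul_index hle
    have h2 : ωL.ker.index = Module.finrank K L := by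
      rw [Subgroup.index_ker, MonoidHom.range_eq_top.2 hsurj, Subgroup.card_top,
        IsGalois.card_aut_eq_finrank]
    have h3 := normClasses_index_le (L := L) (levelMod_ne_bot hT k)
    rw [← h1, h2] at h3
    have h4 : 0 < Module.finrank K L := Module.finrank_pos
    have h5 : (normClasses L (levelMod_ne_bot hT k)).relIndex ωL.ker ≠ 0 :=
      Subgroup.index_ne_zero_of_finite
    have : (normClasses L (levelMod_ne_bot hT k)).relIndex ωL.ker ≤ 1 :=
      Nat.le_of_mul_le_mul_right (h3.trans (one_mul _).ge) h4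
    omega
  have hle : ωL.ker ≤ ω.ker := by
    rw [hkerL, normClasses, Subgroup.closure_le]
    rintro _ ⟨Q, h, rfl⟩
    obtain ⟨hv, e⟩ := hgen Q h
    rw [SetLike.mem_coe, MonoidHom.mem_ker, e, map_pow, hω, ← map_pow, ← map_pow]
    refine (QuotientGroup.eq_one_iff _).2 (Subgroup.mem_sup_right ⟨fun u => ?_, fun w => ?_⟩)
    · rcases eq_or_ne u (belowP K Q) with rfl | hu
      · have hr : ¬ IsRam L (belowP K Q) := (coprime_levelMod_iff hT k _).1 hv
        rw [finComp_single_self, map_pow, localArtin_of_not_isRam hr (valued_localEmb_unif _),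
          zpow_one, artinAt_pow_fDeg hr]
      · rw [finComp_single_of_ne hu, map_one]
    · rw [infComp_single, map_one]
  set j := ωL.liftOfSurjective hsurj ⟨ω, hle⟩
  have hj : ∀ γ, j (ωL γ) = ω γ := fun γ => ωL.liftOfRightInverse_comp_apply _ _ _ γ
  have hq : q = j.comp (artinIdele L) :=
    idele_hom_ext (G := Idele K ⧸ H) (f := q) (g := j.comp (artinIdele L)) hT k
    (fun a => by rw [hqp, MonoidHom.comp_apply, artinIdele_principal, map_one])
    (fun x hx => by
      rw [MonoidHom.comp_apply, MonoidHom.mem_ker.1 (levelSub_le_ker (fun v h => h) le_rfl hx),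
        map_one]
      exact (QuotientGroup.eq_one_iff _).2 (Subgroup.mem_sup_right
        (levelSub_le_normSub (fun v h => h) le_rfl hx)))
    fun v hv => by
      have hv' := (coprime_levelMod_iff hT k v).2 hv
      rw [MonoidHom.comp_apply, ← hωL v hv', hj, hω]
  intro x hx
  rw [← QuotientGroup.eq_one_iff]
  show q x = 1
  rw [hq, MonoidHom.comp_apply, MonoidHom.mem_ker.1 hx, map_one]

/-- **A subgroup with a level is the kernel of an abelian extension.** -/
theorem exists_ker_artinIdele_eq_of_level {T : Set (HeightOneSpectrum (𝓞 K))} (hT : T.Finite)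
    (k : ℕ) {H : Subgroup (Idele K)} (hp : (principal (K := K)).range ≤ H)
    (hl : levelSub T k ≤ H) :
    ∃ (L : Type u) (_ : Field L) (_ : NumberField L) (_ : Algebra K L) (_ : IsGalois K L)
      (_ : IsMulCommutative (L ≃ₐ[K] L)), (artinIdele L).ker = H := by
  set q : Idele K →* Idele K ⧸ H := QuotientGroup.mk' H
  have hqp : ∀ a, q (principal a) = 1 := fun a => (QuotientGroup.eq_one_iff _).2 (hp ⟨a, rfl⟩)
  have hql : levelSub T k ≤ q.ker := hl.trans_eq (QuotientGroup.ker_mk' H).symm
  obtain ⟨ω, hω⟩ := exists_rayHom_idele (G := Idele K ⧸ H) hT k q hqp hql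
  obtain ⟨L, i1, i2, i3, i4, i5, hE⟩ := exists_classField (levelMod_ne_bot hT k)
    (Set.univ : Set (InfinitePlace K)) ω.ker (by rw [semiClasses_univ]; exact bot_le)
  obtain ⟨ω', hsurj, hker, hart⟩ := hE.artin
  have hT' : ∀ v, IsRam L v → v ∈ T := fun v hr => by
    by_contra hv
    exact hE.unram v ((coprime_levelMod_iff hT k v).2 hv) hr
  set j := ω'.liftOfSurjective hsurj ⟨ω, hker.le⟩
  have hj : ∀ γ, j (ω' γ) = ω γ := fun γ => ω'.liftOfRightInverse_comp_apply _ _ _ γ
  have hjinj : Function.Injective j := by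
    rw [injective_iff_map_eq_one]
    intro g hg
    obtain ⟨γ, rfl⟩ := hsurj g
    rw [hj, ← MonoidHom.mem_ker, ← hker, MonoidHom.mem_ker] at hg
    exact hg
  have hq : q = j.comp (artinIdele L) :=
    idele_hom_ext (G := Idele K ⧸ H) (f := q) (g := j.comp (artinIdele L)) hT (max k (nrLevel K L))
    (fun a => by rw [hqp, MonoidHom.comp_apply, artinIdele_principal, map_one])
    (fun x hx => by
      rw [MonoidHom.comp_apply, MonoidHom.mem_ker.1 (levelSub_le_ker hT' (le_max_right _ _) hx),
        map_one]
      exact hql (show x ∈ levelSub T k from ⟨hx.1, fun v hv =>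
        nearLocal_anti v (le_max_left _ _) (hx.2.1 v hv), hx.2.2⟩))
    fun v hv => by
      have hv' := (coprime_levelMod_iff hT k v).2 hv
      rw [MonoidHom.comp_apply, artinIdele_single_unif (fun hr => hv (hT' v hr)), ← hω v hv', ← hj,
        hart, artinHom_prime]
  refine ⟨L, i1, i2, i3, i4, i5, ?_⟩
  ext x
  rw [MonoidHom.mem_ker, ← QuotientGroup.eq_one_iff, show (x : Idele K ⧸ H) = q x from rfl, hq,
    MonoidHom.comp_apply, map_eq_one_iff j hjinj]

end FA.Ideles

end
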