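import Fermat.Agent.NormResidue.Kernel
import Fermat.Agent.QuadFormsNF.Local
import Mathlib.NumberTheory.NumberField.Completion.InfinitePlace

/-!
# The symbol on the completions

The norm residue symbols are continuous and the field is dense, so they extend to the
multiplicative groups of the completions.
-/

set_option autoImplicit false
set_option linter.unusedSectionVars false
set_option linter.style.haveILetI false

noncomputable section

open NumberField NumberField.InfinitePlace NumberField.InfinitePlace.Completion IsDedekindDomain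
open Finset WithZero IsMulCommutative
open FA.ArtinRec FA.NormResidue
open FA.QuadFormsNF (valued_algebraMap exists_element_near)
open FA.HasseCyclic (nearOne mem_nearOne mem_locNorms)
open scoped Pointwise Classical

namespace FA.Ideles

universe u

variable {K : Type u} [Field K] [NumberField K] (v : HeightOneSpectrum (𝓞 K))

/-- An element of the field in the completion. -/
def localEmb : Kˣ →* (v.adicCompletion K)ˣ :=
  Units.map (algebraMap K (v.adicCompletion K) : K →* v.adicCompletion K)

theorem localEmb_val (a : Kˣ) :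
    ((localEmb v a : (v.adicCompletion K)ˣ) : v.adicCompletion K) =
      algebraMap K (v.adicCompletion K) (a : K) := rfl

/-- The units congruent to `1` to a level, in the completion. -/
def nearLocal (k : ℕ) : Subgroup (v.adicCompletion K)ˣ where
  carrier := {z | Valued.v ((z : v.adicCompletion K) - 1) ≤ exp (-((k + 1 : ℕ) : ℤ))}
  one_mem' := by simp
  mul_mem' {a b} ha hb := by
    show Valued.v (((a * b : (v.adicCompletion K)ˣ) : v.adicCompletion K) - 1) ≤ _
    rw [Units.val_mul, show (a : v.adicCompletion K) * b - 1 =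
      (a : v.adicCompletion K) * ((b : v.adicCompletion K) - 1) + ((a : v.adicCompletion K) - 1) by
        ring]
    refine Valuation.map_add_le _ ?_ ha
    rw [map_mul]
    refine (mul_le_of_le_one_left zero_le ?_).trans hb
    rw [← sub_add_cancel (a : v.adicCompletion K) 1]
    exact Valuation.map_add_le _ (ha.trans (by rw [← exp_zero, exp_le_exp]; omega))
      (map_one Valued.v).le
  inv_mem' {a} ha := by
    have h1 : Valued.v (a : v.adicCompletion K) = 1 := by
      rw [← add_sub_cancel 1 (a : v.adicCompletion K), Valuation.map_add_eq_of_lt_left _ (by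
        rw [map_one]; exact ha.trans_lt (by rw [← exp_zero, exp_lt_exp]; omega)), map_one]
    show Valued.v (((a⁻¹ : (v.adicCompletion K)ˣ) : v.adicCompletion K) - 1) ≤ _
    rw [show ((a⁻¹ : (v.adicCompletion K)ˣ) : v.adicCompletion K) - 1 =
      -((a⁻¹ : (v.adicCompletion K)ˣ) : v.adicCompletion K) * ((a : v.adicCompletion K) - 1) by
        rw [mul_sub, neg_mul, Units.inv_mul]; ring, map_mul, Valuation.map_neg,
      Units.val_inv_eq_inv_val, map_inv₀, h1, inv_one, one_mul]
    exact ha

theorem mem_nearLocal {k : ℕ} {z : (v.adicCompletion K)ˣ} :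
    z ∈ nearLocal v k ↔ Valued.v ((z : v.adicCompletion K) - 1) ≤ exp (-((k + 1 : ℕ) : ℤ)) :=
  Iff.rfl

theorem nearLocal_anti {j k : ℕ} (h : j ≤ k) : nearLocal v k ≤ nearLocal v j :=
  fun _ hz => hz.trans (exp_le_exp.2 (by omega))

theorem localEmb_mem_nearLocal {k : ℕ} {a : Kˣ} :
    localEmb v a ∈ nearLocal v k ↔ a ∈ nearOne v k := by
  rw [mem_nearLocal, mem_nearOne, localEmb_val, ← map_one (algebraMap K (v.adicCompletion K)),
    ← map_sub, valued_algebraMap]

theorem valued_eq_one_of_nearLocal {k : ℕ} {z : (v.adicCompletion K)ˣ} (h : z ∈ nearLocal v k) :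
    Valued.v (z : v.adicCompletion K) = 1 := by
  rw [← add_sub_cancel 1 (z : v.adicCompletion K), Valuation.map_add_eq_of_lt_left _ (by
    rw [map_one]
    exact ((mem_nearLocal v).1 h).trans_lt (by rw [← exp_zero, exp_lt_exp]; omega)), map_one]

/-- **Density.** -/
theorem exists_near (z : (v.adicCompletion K)ˣ) (k : ℕ) :
    ∃ a : Kˣ, localEmb v a / z ∈ nearLocal v k := by
  have hz : Valued.v (z : v.adicCompletion K) ≠ 0 := (Valuation.ne_zero_iff _).2 z.ne_zero
  set i := log (Valued.v (z : v.adicCompletion K))
  obtain ⟨a, ha⟩ := exists_element_near v (z : v.adicCompletion K) (k + 1 + (-i).toNat)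
  refine ⟨a, (mem_nearLocal v).2 ?_⟩
  rw [Units.val_div_eq_div_val, localEmb_val, div_sub_one z.ne_zero, map_div₀]
  refine (div_le_iff₀ (zero_lt_iff.2 hz)).2 (ha.trans ?_)
  rw [← exp_log hz, ← exp_add, exp_le_exp]
  push_cast
  omega

variable {L : Type*} [Field L] [NumberField L] [Algebra K L] [IsGalois K L]
  [IsMulCommutative (L ≃ₐ[K] L)]

variable {v}

variable (L) in
/-- The defining value. -/
def localVal (v : HeightOneSpectrum (𝓞 K)) (z : (v.adicCompletion K)ˣ) : L ≃ₐ[K] L :=
  normSymbol L v (exists_near v z (nrLevel K L)).choose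

theorem localVal_eq {z : (v.adicCompletion K)ˣ} {a : Kˣ}
    (h : localEmb v a / z ∈ nearLocal v (nrLevel K L)) : localVal L v z = normSymbol L v a := by
  rw [localVal, ← div_eq_one, ← map_div]
  refine MonoidHom.mem_ker.1 (nearOne_le_ker_normSymbol v ((localEmb_mem_nearLocal v).1 ?_))
  rw [map_div, ← div_div_div_cancel_right _ _ z]
  exact div_mem (exists_near v z (nrLevel K L)).choose_spec h

variable (L) in
/-- **The local reciprocity map of the completion.** -/
def localArtin (v : HeightOneSpectrum (𝓞 K)) : (v.adicCompletion K)ˣ →* (L ≃ₐ[K] L) :=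
  MonoidHom.mk' (localVal L v) fun z z' => by
    have h1 := (exists_near v z (nrLevel K L)).choose_spec
    have h2 := (exists_near v z' (nrLevel K L)).choose_spec
    rw [localVal_eq (a := (exists_near v z (nrLevel K L)).choose *
      (exists_near v z' (nrLevel K L)).choose) (by
        rw [map_mul, mul_div_mul_comm]; exact mul_mem h1 h2), map_mul]
    rfl

theorem localArtin_eq {z : (v.adicCompletion K)ˣ} {a : Kˣ}
    (h : localEmb v a / z ∈ nearLocal v (nrLevel K L)) :
    localArtin L v z = normSymbol L v a :=
  localVal_eq h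

/-- It extends the symbol. -/
theorem localArtin_localEmb (a : Kˣ) : localArtin L v (localEmb v a) = normSymbol L v a :=
  localArtin_eq (by rw [div_self']; exact one_mem _)

/-- **The image is the decomposition group.** -/
theorem range_localArtin {Q : HeightOneSpectrum (𝓞 L)} (hQ : belowP K Q = v) :
    (localArtin L v).range = MulAction.stabilizer (L ≃ₐ[K] L) Q.asIdeal := by
  rw [← range_normSymbol hQ]
  refine le_antisymm ?_ ?_
  · rintro _ ⟨z, rfl⟩
    exact ⟨_, rfl⟩
  · rintro _ ⟨a, rfl⟩
    exact ⟨localEmb v a, localArtin_localEmb a⟩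

theorem nearLocal_le_ker : nearLocal v (nrLevel K L) ≤ (localArtin L v).ker := fun z hz => by
  rw [MonoidHom.mem_ker, localArtin_eq (a := 1) (by rw [map_one, one_div]; exact inv_mem hz),
    map_one]

/-- **The kernel is the closure of the norms.** -/
theorem mem_ker_localArtin_iff (z : (v.adicCompletion K)ˣ) :
    localArtin L v z = 1 ↔
      ∀ k : ℕ, ∃ x : Lˣ, z / localEmb v (normU' x) ∈ nearLocal v k := by
  constructor
  · intro h k
    obtain ⟨a, ha⟩ := exists_near v z (max k (nrLevel K L))
    rw [localArtin_eq (nearLocal_anti v (le_max_right _ _) ha), ← MonoidHom.mem_ker,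
      ker_normSymbol] at h
    obtain ⟨_, ⟨x, rfl⟩, c, hc, hxc⟩ := Subgroup.mem_sup.1 (Subgroup.mem_iInf.1 h k)
    refine ⟨x, ?_⟩
    rw [show z / localEmb v (normU' x) = localEmb v c * (localEmb v a / z)⁻¹ by
      rw [← hxc, map_mul, inv_div, mul_comm (localEmb v (normU' x)), ← div_div, ← mul_div_assoc,
        mul_div_cancel]]
    exact mul_mem ((localEmb_mem_nearLocal v).2 hc)
      (inv_mem (nearLocal_anti v (le_max_left _ _) ha))
  · intro h
    obtain ⟨x, hx⟩ := h (nrLevel K L)
    rw [localArtin_eq (a := normU' x) (by rw [← inv_div]; exact inv_mem hx), normSymbol_normU']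

/-- At an unramified prime only the valuation counts. -/
theorem localArtin_of_not_isRam (hv : ¬ IsRam L v) {z : (v.adicCompletion K)ˣ} {i : ℤ}
    (hz : Valued.v (z : v.adicCompletion K) = exp (-i)) : localArtin L v z = artinAt L v ^ i := by
  obtain ⟨a, ha⟩ := exists_near v z (nrLevel K L)
  rw [localArtin_eq ha, normSymbol_of_not_isRam hv]
  congr 1
  refine (ord_eq_iff v).2 ?_
  have h := valued_eq_one_of_nearLocal v ha
  rwa [Units.val_div_eq_div_val, localEmb_val, map_div₀, hz, div_eq_one_iff_eq exp_ne_zero,
    valued_algebraMap] at h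

theorem localArtin_unit (hv : ¬ IsRam L v) {z : (v.adicCompletion K)ˣ}
    (hz : Valued.v (z : v.adicCompletion K) = 1) : localArtin L v z = 1 := by
  rw [localArtin_of_not_isRam hv (i := 0) (by rw [neg_zero, exp_zero, hz]), zpow_zero]

/-! ### The infinite places -/

variable (L) in
/-- The defining value at an infinite place: only a negative sign counts. -/
def localInfVal (w : InfinitePlace K) (z : w.Completionˣ) : L ≃ₐ[K] L :=
  if ∃ hr : IsReal w, extensionEmbeddingOfIsReal hr (z : w.Completion) < 0 then
    infSymbol L w (-1) else 1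

theorem extension_ne_zero {w : InfinitePlace K} (hr : IsReal w) (z : w.Completionˣ) :
    extensionEmbeddingOfIsReal hr (z : w.Completion) ≠ 0 :=
  (map_ne_zero _).2 z.ne_zero

variable (L) in
/-- **The local reciprocity map at an infinite place.** -/
def localArtinInf (w : InfinitePlace K) : w.Completionˣ →* (L ≃ₐ[K] L) :=
  MonoidHom.mk' (localInfVal L w) fun z z' => by
    by_cases hr : IsReal w
    · have hsq : infSymbol L w (-1) * infSymbol L w (-1) = 1 := by
        rw [← map_mul, neg_one_mul, neg_neg, map_one]
      have e : ∀ t : w.Completionˣ, localInfVal L w t =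
          if extensionEmbeddingOfIsReal hr (t : w.Completion) < 0 then infSymbol L w (-1) else 1 :=
        fun t => if_congr ⟨fun ⟨_, h⟩ => h, fun h => ⟨hr, h⟩⟩ rfl rfl
      rw [e, e, e, Units.val_mul, map_mul]
      rcases lt_or_gt_of_ne (extension_ne_zero hr z) with h | h <;>
        rcases lt_or_gt_of_ne (extension_ne_zero hr z') with h' | h'
      · rw [if_neg (mul_pos_of_neg_of_neg h h').le.not_gt, if_pos h, if_pos h', hsq]
      · rw [if_pos (mul_neg_of_neg_of_pos h h'), if_pos h, if_neg h'.le.not_gt, mul_one]
      · rw [if_pos (mul_neg_of_pos_of_neg h h'), if_neg h.le.not_gt, if_pos h', one_mul]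
      · rw [if_neg (mul_pos h h').le.not_gt, if_neg h.le.not_gt, if_neg h'.le.not_gt, one_mul]
    · simp only [localInfVal, if_neg fun h : ∃ hr : IsReal w, _ => hr h.1, one_mul]

theorem localArtinInf_apply (w : InfinitePlace K) (z : w.Completionˣ) :
    localArtinInf L w z = if ∃ hr : IsReal w, extensionEmbeddingOfIsReal hr (z : w.Completion) < 0
      then infSymbol L w (-1) else 1 := rfl

theorem infSymbol_neg_one_eq_one_iff (w : InfinitePlace K) :
    infSymbol L w (-1) = 1 ↔ (w.IsUnramifiedIn L ∨ ¬ IsReal w) := by
  rw [infSymbol_eq_one_iff]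
  constructor
  · intro h
    by_contra! hc
    have := h hc.1 hc.2
    simp at this
    linarith
  · rintro (h | h) hn hr
    exacts [absurd h hn, absurd hr h]

/-- **The kernel at an infinite place.** -/
theorem localArtinInf_eq_one_iff (w : InfinitePlace K) (z : w.Completionˣ) :
    localArtinInf L w z = 1 ↔ (¬ w.IsUnramifiedIn L → ∀ hr : IsReal w,
      0 < extensionEmbeddingOfIsReal hr (z : w.Completion)) := by
  rw [localArtinInf_apply]
  split_ifs with h
  · obtain ⟨hr, hneg⟩ := h
    rw [infSymbol_neg_one_eq_one_iff]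
    exact ⟨fun h hn => absurd (h.resolve_right (not_not_intro hr)) hn,
      fun h => Or.inl (by_contra fun hn => lt_asymm hneg (h hn hr))⟩
  · simp only [not_exists, not_lt] at h
    exact iff_of_true rfl fun _ hr => lt_of_le_of_ne (h hr) (extension_ne_zero hr z).symm

/-- It extends the symbol. -/
theorem localArtinInf_coe (w : InfinitePlace K) (a : Kˣ) :
    localArtinInf L w (Units.map (algebraMap K w.Completion : K →* w.Completion) a) =
      infSymbol L w a := by
  have hval : ∀ hr : IsReal w, extensionEmbeddingOfIsReal hr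
      (algebraMap K w.Completion (a : K)) = embedding_of_isReal hr (a : K) := fun hr =>
    extensionEmbeddingOfIsReal_coe hr (WithAbs.toAbs w.1 (a : K))
  rw [localArtinInf_apply]
  split_ifs with h
  · obtain ⟨hr, hneg⟩ := h
    replace hneg : embedding_of_isReal hr (a : K) < 0 := (hval hr).symm.trans_lt hneg
    rw [eq_comm, ← div_eq_one, ← map_div, infSymbol_eq_one_iff]
    intro _ hr'
    rw [Units.val_div_eq_div_val, Units.val_neg, Units.val_one, div_neg, div_one, map_neg]
    exact neg_pos.2 hneg
  · refine ((infSymbol_eq_one (L := L)) fun _ hr => lt_of_le_of_ne (not_lt.1 fun hneg => h ⟨hr,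
      (hval hr).trans_lt hneg⟩) ((map_ne_zero _).2 a.ne_zero).symm).symm

/-- **The image at an infinite place is the decomposition group.** -/
theorem range_localArtinInf {w : InfinitePlace K} {u : InfinitePlace L}
    (hu : u.comap (algebraMap K L) = w) :
    (localArtinInf L w).range = MulAction.stabilizer (L ≃ₐ[K] L) u := by
  rw [← range_infSymbol hu]
  refine le_antisymm ?_ ?_
  · rintro _ ⟨z, rfl⟩
    rw [localArtinInf_apply]
    split_ifs
    exacts [⟨-1, rfl⟩, one_mem _]
  · rintro _ ⟨a, rfl⟩
    exact ⟨_, localArtinInf_coe w a⟩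

end FA.Ideles

end
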