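import Fermat.Agent.Ideles.Local
import Mathlib.NumberTheory.NumberField.AdeleRing

/-!
# The Artin map on the ideles

The product of the local maps: trivial on the principal ideles, with open kernel, onto the Galois
group, compatible with restriction.
-/

set_option autoImplicit false
set_option linter.unusedSectionVars false
set_option linter.style.haveILetI false

noncomputable section

open NumberField NumberField.InfinitePlace NumberField.InfinitePlace.Completion IsDedekindDomain
open Finset WithZero IsMulCommutative
open FA.ArtinRec FA.NormResidue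
open FA.QuadFormsNF (valued_algebraMap)
open scoped Pointwise Classical

namespace FA.Ideles

universe u

/-- The idele group of a number field. -/
abbrev Idele (K : Type u) [Field K] [NumberField K] := (AdeleRing (𝓞 K) K)ˣ

variable {K : Type u} [Field K] [NumberField K]

/-- The component at a prime. -/
def finComp (v : HeightOneSpectrum (𝓞 K)) : Idele K →* (v.adicCompletion K)ˣ :=
  Units.map { toFun := fun a => a.2 v, map_one' := rfl, map_mul' := fun _ _ => rfl }

/-- The component at an infinite place. -/
def infComp (w : InfinitePlace K) : Idele K →* w.Completionˣ :=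
  Units.map { toFun := fun a => a.1 w, map_one' := rfl, map_mul' := fun _ _ => rfl }

theorem finComp_val (v : HeightOneSpectrum (𝓞 K)) (x : Idele K) :
    ((finComp v x : (v.adicCompletion K)ˣ) : v.adicCompletion K) = x.val.2 v := rfl

theorem infComp_val (w : InfinitePlace K) (x : Idele K) :
    ((infComp w x : w.Completionˣ) : w.Completion) = x.val.1 w := rfl

/-- The principal ideles. -/
def principal : Kˣ →* Idele K :=
  Units.map (algebraMap K (AdeleRing (𝓞 K) K) : K →* AdeleRing (𝓞 K) K)

theorem finComp_principal (v : HeightOneSpectrum (𝓞 K)) (a : Kˣ) :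
    finComp v (principal a) = localEmb v a := Units.ext rfl

theorem infComp_principal (w : InfinitePlace K) (a : Kˣ) :
    infComp w (principal a) = Units.map (algebraMap K w.Completion : K →* w.Completion) a :=
  Units.ext rfl

theorem idele_ext {x y : Idele K} (hf : ∀ v, finComp v x = finComp v y)
    (hi : ∀ w, infComp w x = infComp w y) : x = y :=
  Units.ext (Prod.ext (funext fun w => congrArg Units.val (hi w))
    (FiniteAdeleRing.ext _ fun v => congrArg Units.val (hf v)))

/-- Almost every component is a unit. -/
theorem finite_valued_ne_one (x : Idele K) :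
    {v | Valued.v ((finComp v x : (v.adicCompletion K)ˣ) : v.adicCompletion K) ≠ 1}.Finite :=
  Filter.eventually_cofinite.1 (FiniteAdeleRing.isUnit_iff.1
    (x.isUnit.map ({ toFun := fun a => a.2, map_one' := rfl, map_mul' := fun _ _ => rfl } :
      AdeleRing (𝓞 K) K →* FiniteAdeleRing (𝓞 K) K))).2

/-- A finite idele with prescribed components. -/
def ofFinite (f : ∀ v : HeightOneSpectrum (𝓞 K), (v.adicCompletion K)ˣ)
    (hf : {v | Valued.v ((f v : (v.adicCompletion K)ˣ) : v.adicCompletion K) ≠ 1}.Finite) :
    Idele K :=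
  Units.map { toFun := fun a => ((1, a) : InfiniteAdeleRing K × FiniteAdeleRing (𝓞 K) K),
              map_one' := rfl, map_mul' := fun _ _ => Prod.ext (one_mul 1).symm rfl }
    (RestrictedProduct.mkUnit f (Filter.eventually_cofinite.2 (hf.subset fun v hv h => hv
      ((HeightOneSpectrum.adicCompletionIntegers.mem_units_iff_valued_eq_one (K := K) (v := v)).2 h))))

theorem finComp_ofFinite (f : ∀ v : HeightOneSpectrum (𝓞 K), (v.adicCompletion K)ˣ)
    (hf : {v | Valued.v ((f v : (v.adicCompletion K)ˣ) : v.adicCompletion K) ≠ 1}.Finite)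
    (v : HeightOneSpectrum (𝓞 K)) : finComp v (ofFinite f hf) = f v := Units.ext rfl

theorem infComp_ofFinite (f : ∀ v : HeightOneSpectrum (𝓞 K), (v.adicCompletion K)ˣ)
    (hf : {v | Valued.v ((f v : (v.adicCompletion K)ˣ) : v.adicCompletion K) ≠ 1}.Finite)
    (w : InfinitePlace K) : infComp w (ofFinite f hf) = 1 := Units.ext rfl

theorem finite_mulSingle (v : HeightOneSpectrum (𝓞 K)) (z : (v.adicCompletion K)ˣ) :
    {u | Valued.v ((Pi.mulSingle (M := fun u : HeightOneSpectrum (𝓞 K) => (u.adicCompletion K)ˣ) v z
      u : (u.adicCompletion K)ˣ) : u.adicCompletion K) ≠ 1}.Finite :=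
  (Set.finite_singleton v).subset fun u hu => by
    by_contra h
    exact hu (by rw [Pi.mulSingle_eq_of_ne h, Units.val_one, map_one])

/-- The idele with one component at a prime. -/
def single (v : HeightOneSpectrum (𝓞 K)) : (v.adicCompletion K)ˣ →* Idele K :=
  MonoidHom.mk' (fun z => ofFinite _ (finite_mulSingle v z)) fun z z' =>
    idele_ext (fun u => by
      rw [map_mul, finComp_ofFinite, finComp_ofFinite, finComp_ofFinite, Pi.mulSingle_mul,
        Pi.mul_apply])
      fun w => by rw [map_mul, infComp_ofFinite, infComp_ofFinite, infComp_ofFinite, one_mul]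

theorem finComp_single_self (v : HeightOneSpectrum (𝓞 K)) (z : (v.adicCompletion K)ˣ) :
    finComp v (single v z) = z :=
  (finComp_ofFinite _ (finite_mulSingle v z) v).trans
    (Pi.mulSingle_eq_same (M := fun u : HeightOneSpectrum (𝓞 K) => (u.adicCompletion K)ˣ) v z)

theorem finComp_single_of_ne {u v : HeightOneSpectrum (𝓞 K)} (h : u ≠ v)
    (z : (v.adicCompletion K)ˣ) : finComp u (single v z) = 1 :=
  (finComp_ofFinite _ (finite_mulSingle v z) u).trans
    (Pi.mulSingle_eq_of_ne (M := fun u : HeightOneSpectrum (𝓞 K) => (u.adicCompletion K)ˣ) h z)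

theorem infComp_single (w : InfinitePlace K) (v : HeightOneSpectrum (𝓞 K))
    (z : (v.adicCompletion K)ˣ) : infComp w (single v z) = 1 :=
  infComp_ofFinite _ (finite_mulSingle v z) w

/-- Units outside `T`, congruent to `1` at `T`, positive at the real places. -/
def levelSub (T : Set (HeightOneSpectrum (𝓞 K))) (k : ℕ) : Subgroup (Idele K) where
  carrier := {x | (∀ v ∉ T,
      Valued.v ((finComp v x : (v.adicCompletion K)ˣ) : v.adicCompletion K) = 1) ∧
    (∀ v ∈ T, finComp v x ∈ nearLocal v k) ∧
    ∀ (w : InfinitePlace K) (hr : IsReal w), 0 < extensionEmbeddingOfIsReal hr (infComp w x).val}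
  one_mem' := ⟨fun v _ => by rw [map_one, Units.val_one, map_one],
    fun v _ => by rw [map_one]; exact one_mem _, fun w hr => by simp⟩
  mul_mem' {x y} hx hy := ⟨fun v hv => by
      rw [map_mul, Units.val_mul, map_mul, hx.1 v hv, hy.1 v hv, one_mul],
    fun v hv => by rw [map_mul]; exact mul_mem (hx.2.1 v hv) (hy.2.1 v hv),
    fun w hr => by rw [map_mul, Units.val_mul, map_mul]; exact mul_pos (hx.2.2 w hr) (hy.2.2 w hr)⟩
  inv_mem' {x} hx := ⟨fun v hv => by
      rw [map_inv, Units.val_inv_eq_inv_val, map_inv₀, hx.1 v hv, inv_one],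
    fun v hv => by rw [map_inv]; exact inv_mem (hx.2.1 v hv),
    fun w hr => by rw [map_inv, Units.val_inv_eq_inv_val, map_inv₀]; exact inv_pos.2 (hx.2.2 w hr)⟩

theorem mem_levelSub {T : Set (HeightOneSpectrum (𝓞 K))} {k : ℕ} {x : Idele K} :
    x ∈ levelSub T k ↔ (∀ v ∉ T,
      Valued.v ((finComp v x : (v.adicCompletion K)ˣ) : v.adicCompletion K) = 1) ∧
    (∀ v ∈ T, finComp v x ∈ nearLocal v k) ∧
    ∀ (w : InfinitePlace K) (hr : IsReal w),
      0 < extensionEmbeddingOfIsReal hr (infComp w x).val := Iff.rfl

theorem continuous_finComp (v : HeightOneSpectrum (𝓞 K)) :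
    Continuous fun a : AdeleRing (𝓞 K) K => a.2 v :=
  (RestrictedProduct.continuous_eval v).comp continuous_snd

theorem continuous_infComp (w : InfinitePlace K) :
    Continuous fun a : AdeleRing (𝓞 K) K => a.1 w :=
  (continuous_apply w).comp continuous_fst

theorem isOpen_near (v : HeightOneSpectrum (𝓞 K)) (k : ℕ) :
    IsOpen {z : v.adicCompletion K | Valued.v (z - 1) ≤ exp (-((k + 1 : ℕ) : ℤ))} := by
  have hc : Valued.v (algebraMap K (v.adicCompletion K) ((unif v : K) ^ (k + 1))) =
      exp (-((k + 1 : ℕ) : ℤ)) := by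
    rw [valued_algebraMap, map_pow, valuation_eq_exp, ord_unif, ← exp_nsmul]
    simp
  have h : {z : v.adicCompletion K | Valued.v (z - 1) ≤ exp (-((k + 1 : ℕ) : ℤ))} =
      (fun z : v.adicCompletion K => z - 1) ⁻¹'
        {z | (Valued.v (R := v.adicCompletion K)).restrict z ≤
          (Valued.v (R := v.adicCompletion K)).restrict
            (algebraMap K (v.adicCompletion K) ((unif v : K) ^ (k + 1)))} := by
    ext z
    rw [Set.mem_preimage, Set.mem_ofPred_eq, Set.mem_ofPred_eq, Valuation.restrict_le_iff, hc]
  rw [h]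
  refine (Valued.isOpen_closedBall _ ?_).preimage (continuous_id.sub continuous_const)
  exact (Valuation.ne_zero_iff _).2 ((map_ne_zero _).2 (pow_ne_zero _ (unif v).ne_zero))

/-- **The level subgroups are open.** -/
theorem isOpen_levelSub {T : Set (HeightOneSpectrum (𝓞 K))} (hT : T.Finite) (k : ℕ) :
    IsOpen (levelSub T k : Set (Idele K)) := by
  set O := {a : AdeleRing (𝓞 K) K | ∀ v, a.2 v ∈ v.adicCompletionIntegers K}
  have hO : IsOpen O :=
    (RestrictedProduct.isOpen_forall_mem fun v => Valued.isOpen_valuationSubring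
      (v.adicCompletion K)).preimage continuous_snd
  have hunit : ∀ (x : Idele K) (v : HeightOneSpectrum (𝓞 K)),
      (x.val.2 v ∈ v.adicCompletionIntegers K ∧ (↑x⁻¹ : AdeleRing (𝓞 K) K).2 v ∈
        v.adicCompletionIntegers K) ↔
      Valued.v ((finComp v x : (v.adicCompletion K)ˣ) : v.adicCompletion K) = 1 := fun x v =>
    HeightOneSpectrum.adicCompletionIntegers.mem_units_iff_valued_eq_one (a := finComp v x)
  have heq : (levelSub T k : Set (Idele K)) =
      (Units.val ⁻¹' O ∩ (fun x => (↑x⁻¹ : AdeleRing (𝓞 K) K)) ⁻¹' O) ∩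
      ((⋂ v ∈ T, Units.val ⁻¹' ((fun a : AdeleRing (𝓞 K) K => a.2 v) ⁻¹'
          {z | Valued.v (z - 1) ≤ exp (-((k + 1 : ℕ) : ℤ))})) ∩
        ⋂ (w : InfinitePlace K) (hr : IsReal w), Units.val ⁻¹'
          ((fun a : AdeleRing (𝓞 K) K => extensionEmbeddingOfIsReal hr (a.1 w)) ⁻¹' Set.Ioi 0)) := by
    ext x
    simp only [SetLike.mem_coe, Set.mem_inter_iff, Set.mem_preimage, Set.mem_iInter, O,
      Set.mem_ofPred_eq, Set.mem_Ioi]
    constructor
    · rintro ⟨h1, h2, h3⟩
      have h4 : ∀ v, _ := fun v => (hunit x v).2 (if hv : v ∈ T then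
        valued_eq_one_of_nearLocal v (h2 v hv) else h1 v hv)
      exact ⟨⟨fun v => (h4 v).1, fun v => (h4 v).2⟩, fun v hv => h2 v hv, h3⟩
    · rintro ⟨⟨h1, h1'⟩, h2, h3⟩
      exact ⟨fun v _ => (hunit x v).1 ⟨h1 v, h1' v⟩, fun v hv => h2 v hv, h3⟩
  rw [heq]
  refine ((hO.preimage Units.continuous_val).inter (hO.preimage Units.continuous_coe_inv)).inter
    ((hT.isOpen_biInter fun v _ =>
      ((isOpen_near v k).preimage (continuous_finComp v)).preimage Units.continuous_val).inter
    (isOpen_iInter_of_finite fun w => isOpen_iInter_of_finite fun hr =>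
      (isOpen_Ioi.preimage ((isometry_extensionEmbeddingOfIsReal hr).continuous.comp
        (continuous_infComp w))).preimage Units.continuous_val))

/-- **Ideles are made of principal ones, a level subgroup and uniformisers.** -/
theorem exists_decomp {T : Set (HeightOneSpectrum (𝓞 K))} (hT : T.Finite) (k : ℕ) (x : Idele K) :
    ∃ (a : Kˣ) (F : Finset (HeightOneSpectrum (𝓞 K))) (e : HeightOneSpectrum (𝓞 K) → ℤ),
      (∀ v ∈ F, v ∉ T) ∧
        x / (principal a * ∏ v ∈ F, single v (localEmb v (unif v) ^ e v)) ∈ levelSub T k := by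
  choose b hb using fun v => exists_near v (finComp v x) k
  obtain ⟨a, ha, hs⟩ := exists_approx hT.toFinset b (k + 1) fun φ =>
    decide (∃ (w : InfinitePlace K) (hr : IsReal w),
      embedding_of_isReal hr = φ ∧ 0 < extensionEmbeddingOfIsReal hr (infComp w x).val)
  set y := x / principal a
  set F := (finite_valued_ne_one y).toFinset.filter (· ∉ T)
  set e : HeightOneSpectrum (𝓞 K) → ℤ := fun v =>
    -log (Valued.v ((finComp v y : (v.adicCompletion K)ˣ) : v.adicCompletion K))
  refine ⟨a, F, e, fun v hv => (Finset.mem_filter.1 hv).2, ?_⟩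
  have hP : ∀ v, finComp v (∏ u ∈ F, single u (localEmb u (unif u) ^ e u)) =
      if v ∈ F then localEmb v (unif v) ^ e v else 1 := fun v => by
    rw [map_prod]
    split_ifs with h
    · rw [Finset.prod_eq_single v (fun u _ hu => finComp_single_of_ne hu.symm _)
        (fun h' => absurd h h'), finComp_single_self]
    · exact Finset.prod_eq_one fun u hu =>
        finComp_single_of_ne (fun e' : v = u => h (e'.symm ▸ hu)) _
  rw [← div_div, mem_levelSub]
  refine ⟨fun v hv => ?_, fun v hv => ?_, fun w hr => ?_⟩
  · rw [map_div, hP]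
    split_ifs with h
    · rw [Units.val_div_eq_div_val, Units.val_zpow_eq_zpow_val, localEmb_val, map_div₀, map_zpow₀,
        valued_algebraMap, valuation_eq_exp, ord_unif, ← exp_zsmul, smul_eq_mul, mul_neg, mul_one,
        neg_neg, exp_log ((Valuation.ne_zero_iff _).2 (Units.ne_zero _)),
        div_self ((Valuation.ne_zero_iff _).2 (Units.ne_zero _))]
    · rw [div_one]
      by_contra hne
      exact h (Finset.mem_filter.2 ⟨(finite_valued_ne_one y).mem_toFinset.2 hne, hv⟩)
  · rw [map_div, hP, if_neg (fun h : v ∈ F => (Finset.mem_filter.1 h).2 hv), div_one, map_div,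
      finComp_principal, ← inv_div]
    refine inv_mem ?_
    rw [← div_mul_div_cancel (localEmb v a) (localEmb v (b v)) (finComp v x), ← map_div]
    refine mul_mem ((localEmb_mem_nearLocal v).2 (FA.HasseCyclic.mem_nearOne.2 ?_)) (hb v)
    rw [Units.val_div_eq_div_val]
    exact ha v (hT.mem_toFinset.2 hv)
  · have hval : extensionEmbeddingOfIsReal hr (algebraMap K w.Completion (a : K)) =
        embedding_of_isReal hr (a : K) := extensionEmbeddingOfIsReal_coe hr (WithAbs.toAbs w.1 (a : K))
    rw [map_div, map_prod, Finset.prod_eq_one (fun u _ => infComp_single w u _), div_one, map_div,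
      infComp_principal, Units.val_div_eq_div_val, map_div₀]
    show 0 < _ / extensionEmbeddingOfIsReal hr (algebraMap K w.Completion (a : K))
    rw [hval]
    rcases lt_or_gt_of_ne (extension_ne_zero hr (infComp w x)) with h | h
    · refine div_pos_of_neg_of_neg h (lt_of_le_of_ne (not_lt.1 fun hpos => ?_)
        ((map_ne_zero _).2 a.ne_zero))
      obtain ⟨w', hr', he, hpos'⟩ := of_decide_eq_true ((hs _).1 hpos)
      obtain rfl := embedding_of_isReal_inj hr' hr he
      exact lt_asymm h hpos'
    · exact div_pos h ((hs _).2 (decide_eq_true ⟨w, hr, rfl, h⟩))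

variable {L : Type*} [Field L] [NumberField L] [Algebra K L] [IsGalois K L]
  [IsMulCommutative (L ≃ₐ[K] L)]

theorem mulSupport_localArtin_finite (x : Idele K) :
    (Function.mulSupport fun v => localArtin L v (finComp v x)).Finite :=
  ((finite_isRam K L).union (finite_valued_ne_one x)).subset fun v hv => by
    by_contra h
    simp only [Set.mem_union, Set.mem_ofPred_eq, not_or, not_not] at h
    exact hv (localArtin_unit h.1 h.2)

variable (L) in
/-- **The Artin map on the ideles.** -/
def artinIdele : Idele K →* (L ≃ₐ[K] L) :=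
  MonoidHom.mk' (fun x => (∏ᶠ v, localArtin L v (finComp v x)) *
      ∏ w : InfinitePlace K, localArtinInf L w (infComp w x)) fun x y => by
    simp only [map_mul]
    rw [finprod_mul_distrib (mulSupport_localArtin_finite (L := L) x)
      (mulSupport_localArtin_finite (L := L) y),
      Finset.prod_mul_distrib, mul_mul_mul_comm]

theorem artinIdele_apply (x : Idele K) :
    artinIdele L x = (∏ᶠ v, localArtin L v (finComp v x)) *
      ∏ w : InfinitePlace K, localArtinInf L w (infComp w x) := rfl

/-- **The principal ideles are in the kernel.** -/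
theorem artinIdele_principal (a : Kˣ) : artinIdele L (principal a) = 1 := by
  rw [artinIdele_apply, ← prod_normSymbol (L := L) a]
  congr 1
  · exact finprod_congr fun v => by rw [finComp_principal, localArtin_localEmb]
  · exact Finset.prod_congr rfl fun w _ => by rw [infComp_principal, localArtinInf_coe]

/-- The value on a component. -/
theorem artinIdele_single (v : HeightOneSpectrum (𝓞 K)) (z : (v.adicCompletion K)ˣ) :
    artinIdele L (single v z) = localArtin L v z := by
  rw [artinIdele_apply, Finset.prod_eq_one fun w _ => by rw [infComp_single, map_one], mul_one,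
    finprod_eq_single _ v fun u hu => by rw [finComp_single_of_ne hu, map_one], finComp_single_self]

/-- **The kernel contains a level subgroup.** -/
theorem levelSub_le_ker {T : Set (HeightOneSpectrum (𝓞 K))} {k : ℕ}
    (hT : ∀ v, IsRam L v → v ∈ T) (hk : nrLevel K L ≤ k) :
    levelSub T k ≤ (artinIdele L).ker := fun x hx => by
  rw [MonoidHom.mem_ker, artinIdele_apply,
    Finset.prod_eq_one fun w _ => (localArtinInf_eq_one_iff w _).2 fun _ hr => hx.2.2 w hr,
    mul_one, finprod_eq_one_of_forall_eq_one]
  intro v
  by_cases hv : v ∈ T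
  · exact MonoidHom.mem_ker.1 (nearLocal_le_ker (nearLocal_anti v hk (hx.2.1 v hv)))
  · exact localArtin_unit (fun h => hv (hT v h)) (hx.1 v hv)

/-- **The kernel is open.** -/
theorem isOpen_ker_artinIdele : IsOpen ((artinIdele (K := K) L).ker : Set (Idele K)) :=
  Subgroup.isOpen_mono (levelSub_le_ker (fun _ hv => hv) le_rfl)
    (isOpen_levelSub (finite_isRam K L) _)

theorem artinIdele_uniformiser {v : HeightOneSpectrum (𝓞 K)} (hv : ¬ IsRam L v)
    {z : (v.adicCompletion K)ˣ} (hz : Valued.v (z : v.adicCompletion K) = exp (-1)) :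
    artinIdele L (single v z) = artinAt L v := by
  rw [artinIdele_single, localArtin_of_not_isRam hv hz, zpow_one]

theorem valued_localEmb_unif (v : HeightOneSpectrum (𝓞 K)) :
    Valued.v ((localEmb v (unif v) : (v.adicCompletion K)ˣ) : v.adicCompletion K) = exp (-1) := by
  rw [localEmb_val, valued_algebraMap, valuation_eq_exp, ord_unif]

theorem artinIdele_single_unif {v : HeightOneSpectrum (𝓞 K)} (hv : ¬ IsRam L v) :
    artinIdele L (single v (localEmb v (unif v))) = artinAt L v :=
  artinIdele_uniformiser hv (valued_localEmb_unif v)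

/-- **Onto the Galois group.** -/
theorem artinIdele_surjective : Function.Surjective (artinIdele (K := K) L) := fun g => by
  obtain ⟨v, hv, hvr⟩ := ((infinite_artinAt (K := K) g).sdiff (finite_isRam K L)).nonempty
  exact ⟨_, (artinIdele_single_unif hvr).trans hv⟩

/-- **Homomorphisms are determined by principal ideles, a level subgroup and uniformisers.** -/
theorem idele_hom_ext {G : Type*} [CommGroup G] {T : Set (HeightOneSpectrum (𝓞 K))} (hT : T.Finite)
    (k : ℕ) {f g : Idele K →* G} (hp : ∀ a, f (principal a) = g (principal a))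
    (hl : ∀ x ∈ levelSub T k, f x = g x)
    (hu : ∀ v ∉ T, f (single v (localEmb v (unif v))) = g (single v (localEmb v (unif v)))) :
    f = g := MonoidHom.ext fun x => by
  obtain ⟨a, F, e, hF, hx⟩ := exists_decomp hT k x
  rw [← div_mul_cancel x (principal a * ∏ v ∈ F, single v (localEmb v (unif v) ^ e v)), map_mul f,
    map_mul g, map_mul f, map_mul g, hl _ hx, hp, map_prod, map_prod]
  congr 2
  exact Finset.prod_congr rfl fun v hv => by
    rw [map_zpow, map_zpow, map_zpow, hu v (hF v hv)]

section tower

variable {E : Type*} [Field E] [NumberField E] [Algebra K E] [Algebra E L] [IsScalarTower K E L]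
  [IsGalois K E] [IsMulCommutative (E ≃ₐ[K] E)]

/-- **Restriction.** -/
theorem restrict_artinIdele (x : Idele K) :
    AlgEquiv.restrictNormalHom E (artinIdele L x) = artinIdele E x := by
  rw [artinIdele_apply, artinIdele_apply, map_mul, map_prod, MonoidHom.map_finprod _
    (f := fun v => localArtin L v (finComp v x)) (mulSupport_localArtin_finite x)]
  congr 1
  · refine finprod_congr fun v => ?_
    obtain ⟨a, ha⟩ := exists_near v (finComp v x) (max (nrLevel K L) (nrLevel K E))
    rw [localArtin_eq (nearLocal_anti v (le_max_left _ _) ha),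
      localArtin_eq (nearLocal_anti v (le_max_right _ _) ha), restrict_normSymbol]
  · refine Finset.prod_congr rfl fun w _ => ?_
    rw [localArtinInf_apply, localArtinInf_apply]
    split_ifs
    exacts [restrict_infSymbol w _, map_one _]

end tower

end FA.Ideles

end
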